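import Mathlib.Algebra.Module.Torsion.Basic
import Mathlib.RingTheory.LocalRing.ResidueField.Basic
import Mathlib.RingTheory.Noetherian.Basic
import Mathlib.RingTheory.Finiteness.Basic
import Mathlib.LinearAlgebra.Dual.Lemmas
import Mathlib.LinearAlgebra.Dimension.Finite

/-!
# (TAN-cot) the relative cotangent space `𝔪_R / (𝔪_𝒪 R + 𝔪_R²)`

For a local `𝒪`-algebra `R` (both local, `𝒪 → R/𝔪_R` onto) this file defines
`RelCotangent 𝒪 R = 𝔪_R / (𝔪_𝒪 R + 𝔪_R²)` as a vector space over `k = ResidueField 𝒪`,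
shows it is finite-dimensional when `R` is Noetherian, and proves that a bound
`finrank k (RelCotangent 𝒪 R) ≤ r` yields `r` elements of `𝔪_R` generating `𝔪_R` modulo
`𝔪_𝒪 R + 𝔪_R²`.  Mathlib only.
-/

set_option autoImplicit false

namespace Fermat.Agent.TW.Tan

open IsLocalRing

section Def

variable (𝒪 R : Type*) [CommRing 𝒪] [IsLocalRing 𝒪] [CommRing R] [IsLocalRing R] [Algebra 𝒪 R]

/-- `𝔪_𝒪 R + 𝔪_R²`. -/
def relIdeal : Ideal R := (maximalIdeal 𝒪).map (algebraMap 𝒪 R) ⊔ maximalIdeal R ^ 2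

/-- The `R`-submodule of `𝔪_R` cut out by `relIdeal`. -/
def relSub : Submodule R (maximalIdeal R) :=
  Submodule.comap (maximalIdeal R).subtype (relIdeal 𝒪 R)

theorem mem_relSub_iff (m : maximalIdeal R) : m ∈ relSub 𝒪 R ↔ (m : R) ∈ relIdeal 𝒪 R := Iff.rfl

/-- The relative cotangent space `𝔪_R / (𝔪_𝒪 R + 𝔪_R²)`. -/
def RelCotangent : Type _ := (maximalIdeal R) ⧸ relSub 𝒪 R

noncomputable instance : AddCommGroup (RelCotangent 𝒪 R) :=
  inferInstanceAs (AddCommGroup ((maximalIdeal R) ⧸ relSub 𝒪 R))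

noncomputable instance : Module R (RelCotangent 𝒪 R) :=
  inferInstanceAs (Module R ((maximalIdeal R) ⧸ relSub 𝒪 R))

noncomputable instance : Module 𝒪 (RelCotangent 𝒪 R) :=
  inferInstanceAs (Module 𝒪 ((maximalIdeal R) ⧸ relSub 𝒪 R))

instance : IsScalarTower 𝒪 R (RelCotangent 𝒪 R) :=
  inferInstanceAs (IsScalarTower 𝒪 R ((maximalIdeal R) ⧸ relSub 𝒪 R))

/-- The quotient map `𝔪_R → 𝔪_R / (𝔪_𝒪 R + 𝔪_R²)`. -/
noncomputable def RelCotangent.mk : maximalIdeal R →ₗ[R] RelCotangent 𝒪 R := (relSub 𝒪 R).mkQ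

variable {𝒪 R}

theorem RelCotangent.mk_surjective : Function.Surjective (RelCotangent.mk 𝒪 R) :=
  Submodule.mkQ_surjective _

theorem RelCotangent.mk_eq_zero_iff (m : maximalIdeal R) :
    RelCotangent.mk 𝒪 R m = 0 ↔ (m : R) ∈ relIdeal 𝒪 R :=
  Submodule.Quotient.mk_eq_zero _

theorem RelCotangent.mk_eq_mk_iff (m m' : maximalIdeal R) :
    RelCotangent.mk 𝒪 R m = RelCotangent.mk 𝒪 R m' ↔ (m : R) - m' ∈ relIdeal 𝒪 R := by
  rw [← sub_eq_zero, ← map_sub, RelCotangent.mk_eq_zero_iff]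
  rfl

/-- `𝔪_R` kills the relative cotangent space. -/
theorem RelCotangent.smul_eq_zero_of_mem {y : R} (hy : y ∈ maximalIdeal R)
    (q : RelCotangent 𝒪 R) : y • q = 0 := by
  obtain ⟨m, rfl⟩ := RelCotangent.mk_surjective q
  rw [← map_smul, RelCotangent.mk_eq_zero_iff]
  refine Ideal.mem_sup_right ?_
  rw [pow_two]
  exact Ideal.mul_mem_mul hy m.2

variable [IsLocalHom (algebraMap 𝒪 R)]

/-- `𝔪_𝒪` kills the relative cotangent space. -/
theorem RelCotangent.smul_eq_zero_of_mem' {a : 𝒪} (ha : a ∈ maximalIdeal 𝒪)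
    (q : RelCotangent 𝒪 R) : a • q = 0 := by
  rw [← algebraMap_smul R a q]
  exact RelCotangent.smul_eq_zero_of_mem
    (IsLocalRing.map_maximalIdeal_le (algebraMap 𝒪 R) (Ideal.mem_map_of_mem _ ha)) q

variable (𝒪 R) in
theorem RelCotangent.isTorsionBySet :
    Module.IsTorsionBySet 𝒪 (RelCotangent 𝒪 R) (maximalIdeal 𝒪) :=
  fun q a => RelCotangent.smul_eq_zero_of_mem' a.2 q

/-- The `k`-vector space structure (`k = ResidueField 𝒪`). -/
noncomputable instance : Module (ResidueField 𝒪) (RelCotangent 𝒪 R) :=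
  (RelCotangent.isTorsionBySet 𝒪 R).module

theorem RelCotangent.residue_smul (a : 𝒪) (q : RelCotangent 𝒪 R) :
    residue 𝒪 a • q = a • q := rfl

instance : IsScalarTower 𝒪 (ResidueField 𝒪) (RelCotangent 𝒪 R) where
  smul_assoc a c q := by
    obtain ⟨b, rfl⟩ := residue_surjective c
    rw [RelCotangent.residue_smul, Algebra.smul_def, ResidueField.algebraMap_eq, ← map_mul,
      RelCotangent.residue_smul, mul_smul]

end Def

section Finite

variable {𝒪 R : Type*} [CommRing 𝒪] [IsLocalRing 𝒪] [CommRing R] [IsLocalRing R] [Algebra 𝒪 R]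
  [IsLocalHom (algebraMap 𝒪 R)]

omit [IsLocalRing 𝒪] [IsLocalHom (algebraMap 𝒪 R)] in
/-- Every element of `R` is congruent to a constant modulo `𝔪_R`. -/
theorem exists_sub_mem_maximalIdeal
    (hres : Function.Surjective (residue R ∘ algebraMap 𝒪 R)) (y : R) :
    ∃ a : 𝒪, y - algebraMap 𝒪 R a ∈ maximalIdeal R := by
  obtain ⟨a, ha⟩ := hres (residue R y)
  refine ⟨a, ?_⟩
  rw [← residue_eq_zero_iff, map_sub, sub_eq_zero]
  exact ha.symm

omit [IsLocalHom (algebraMap 𝒪 R)] in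
theorem RelCotangent.smul_eq_smul_of_sub_mem {y : R} {a : 𝒪}
    (h : y - algebraMap 𝒪 R a ∈ maximalIdeal R) (q : RelCotangent 𝒪 R) : y • q = a • q := by
  have := RelCotangent.smul_eq_zero_of_mem h q
  rwa [sub_smul, algebraMap_smul, sub_eq_zero] at this

omit [IsLocalHom (algebraMap 𝒪 R)] in
/-- In the relative cotangent space `𝒪`-spans and `R`-spans agree. -/
theorem RelCotangent.span_restrictScalars_eq
    (hres : Function.Surjective (residue R ∘ algebraMap 𝒪 R)) (S : Set (RelCotangent 𝒪 R)) :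
    (Submodule.span R S).restrictScalars 𝒪 = Submodule.span 𝒪 S := by
  apply le_antisymm
  · intro q hq
    refine Submodule.span_induction (p := fun q _ => q ∈ Submodule.span 𝒪 S) ?_ ?_ ?_ ?_ hq
    · exact fun x hx => Submodule.subset_span hx
    · exact Submodule.zero_mem _
    · exact fun x y _ _ hx hy => Submodule.add_mem _ hx hy
    · intro y x _ hx
      obtain ⟨a, ha⟩ := exists_sub_mem_maximalIdeal hres y
      rw [RelCotangent.smul_eq_smul_of_sub_mem ha]
      exact Submodule.smul_mem _ _ hx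
  · exact Submodule.span_le_restrictScalars 𝒪 R S

/-- In the relative cotangent space `𝒪`-spans and `k`-spans agree. -/
theorem RelCotangent.span_residueField_restrictScalars_eq (S : Set (RelCotangent 𝒪 R)) :
    (Submodule.span (ResidueField 𝒪) S).restrictScalars 𝒪 = Submodule.span 𝒪 S :=
  Submodule.restrictScalars_span 𝒪 (ResidueField 𝒪) residue_surjective S

/-- The relative cotangent space of a Noetherian local `𝒪`-algebra is finite-dimensional. -/
theorem RelCotangent.finite [IsNoetherianRing R]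
    (hres : Function.Surjective (residue R ∘ algebraMap 𝒪 R)) :
    Module.Finite (ResidueField 𝒪) (RelCotangent 𝒪 R) := by
  have hR : Module.Finite R (RelCotangent 𝒪 R) :=
    inferInstanceAs (Module.Finite R ((maximalIdeal R) ⧸ relSub 𝒪 R))
  obtain ⟨S, hS⟩ := hR.fg_top
  have h𝒪 : Module.Finite 𝒪 (RelCotangent 𝒪 R) := by
    refine ⟨⟨S, ?_⟩⟩
    rw [← RelCotangent.span_restrictScalars_eq hres, hS]
    rfl
  exact Module.Finite.of_restrictScalars_finite 𝒪 (ResidueField 𝒪) (RelCotangent 𝒪 R)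

/-- **(TAN-cot)** If `dim_k 𝔪_R/(𝔪_𝒪 R + 𝔪_R²) ≤ r` then `𝔪_R` is generated by `r` elements
modulo `𝔪_𝒪 R + 𝔪_R²`. -/
theorem exists_generators_of_finrank_le [IsNoetherianRing R]
    (hres : Function.Surjective (residue R ∘ algebraMap 𝒪 R)) {r : ℕ}
    (h : Module.finrank (ResidueField 𝒪) (RelCotangent 𝒪 R) ≤ r) :
    ∃ x : Fin r → R, (∀ i, x i ∈ maximalIdeal R) ∧
      maximalIdeal R ≤ (maximalIdeal 𝒪).map (algebraMap 𝒪 R) ⊔ Ideal.span (Set.range x) ⊔
        maximalIdeal R ^ 2 := by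
  have hfin := RelCotangent.finite (𝒪 := 𝒪) (R := R) hres
  set n := Module.finrank (ResidueField 𝒪) (RelCotangent 𝒪 R) with hn
  let b : Module.Basis (Fin n) (ResidueField 𝒪) (RelCotangent 𝒪 R) :=
    Module.finBasis (ResidueField 𝒪) (RelCotangent 𝒪 R)
  let q : Fin r → RelCotangent 𝒪 R := fun i => if hi : (i : ℕ) < n then b ⟨i, hi⟩ else 0
  have hq : Submodule.span (ResidueField 𝒪) (Set.range q) = ⊤ := by
    rw [eq_top_iff, ← b.span_eq]
    apply Submodule.span_mono
    rintro _ ⟨j, rfl⟩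
    refine ⟨⟨j, lt_of_lt_of_le j.2 h⟩, ?_⟩
    simp only [q, Fin.is_lt, dite_true]
  choose xt hxt using fun i => RelCotangent.mk_surjective (q i)
  refine ⟨fun i => (xt i : R), fun i => (xt i).2, fun m hm => ?_⟩
  have h1 : RelCotangent.mk 𝒪 R ⟨m, hm⟩ ∈ Submodule.span R (Set.range q) := by
    have h2 : RelCotangent.mk 𝒪 R ⟨m, hm⟩ ∈
        (Submodule.span (ResidueField 𝒪) (Set.range q)).restrictScalars 𝒪 := by
      rw [Submodule.restrictScalars_mem, hq]
      trivial
    rw [RelCotangent.span_residueField_restrictScalars_eq,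
      ← RelCotangent.span_restrictScalars_eq hres] at h2
    exact h2
  have h3 : Set.range q = RelCotangent.mk 𝒪 R '' Set.range xt := by
    rw [← Set.range_comp]
    congr 1
    funext i
    exact (hxt i).symm
  rw [h3, ← Submodule.map_span] at h1
  obtain ⟨z, hz, hzm⟩ := h1
  have h4 : (z : R) ∈ Ideal.span (Set.range fun i => (xt i : R)) := by
    have := Submodule.mem_map_of_mem (f := (maximalIdeal R).subtype) hz
    rw [Submodule.map_span, ← Set.range_comp] at this
    exact this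
  have h5 : m - z ∈ relIdeal 𝒪 R := by
    have := (RelCotangent.mk_eq_mk_iff (𝒪 := 𝒪) ⟨m, hm⟩ z).mp hzm.symm
    exact this
  have h6 : m = (m - z) + z := by ring
  rw [h6, sup_right_comm]
  exact Ideal.add_mem _ (Ideal.mem_sup_left h5) (Ideal.mem_sup_right h4)

end Finite

end Fermat.Agent.TW.Tan
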