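import Fermat.Agent.TW.Tan.DualNumberObj
import Fermat.Agent.TW.Tan.RelCotangent

/-!
# (TAN-hom) tangent vectors as `𝒪`-algebra maps `R → k[ε]`

For a local `𝒪`-algebra `R` with `𝒪 → R/𝔪_R` onto and `k = ResidueField 𝒪`, every `k`-linear
functional `l` on the relative cotangent space `𝔪_R/(𝔪_𝒪 R + 𝔪_R²)` gives an `𝒪`-algebra map
`dualNumberHom hres l : R →ₐ[𝒪] k[ε]`, `algebraMap a + m ↦ ā + l([m]) ε`.  It is local, its
`ε`-coordinate is `l ∘ cotPart` (so linear in `l`), and `l ↦ dualNumberHom hres l` is injective.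
Mathlib only.
-/

set_option autoImplicit false

namespace Fermat.Agent.TW.Tan

open IsLocalRing DualNumber TrivSqZeroExt

variable {𝒪 R : Type*} [CommRing 𝒪] [IsLocalRing 𝒪] [CommRing R] [IsLocalRing R] [Algebra 𝒪 R]
  [IsLocalHom (algebraMap 𝒪 R)]

/-- A chosen constant `a ∈ 𝒪` with `y ≡ a` modulo `𝔪_R`. -/
noncomputable def constPart (hres : Function.Surjective (residue R ∘ algebraMap 𝒪 R)) (y : R) : 𝒪 :=
  (exists_sub_mem_maximalIdeal hres y).choose

omit [IsLocalRing 𝒪] [IsLocalHom (algebraMap 𝒪 R)] in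
theorem constPart_spec (hres : Function.Surjective (residue R ∘ algebraMap 𝒪 R)) (y : R) :
    y - algebraMap 𝒪 R (constPart hres y) ∈ maximalIdeal R :=
  (exists_sub_mem_maximalIdeal hres y).choose_spec

/-- The residue class of `y` in `k = ResidueField 𝒪`. -/
noncomputable def resConst (hres : Function.Surjective (residue R ∘ algebraMap 𝒪 R)) (y : R) :
    ResidueField 𝒪 :=
  residue 𝒪 (constPart hres y)

/-- The class of `y - (constant part)` in the relative cotangent space. -/
noncomputable def cotPart (hres : Function.Surjective (residue R ∘ algebraMap 𝒪 R)) (y : R) :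
    RelCotangent 𝒪 R :=
  RelCotangent.mk 𝒪 R ⟨y - algebraMap 𝒪 R (constPart hres y), constPart_spec hres y⟩

omit [IsLocalHom (algebraMap 𝒪 R)] in
/-- Uniqueness of the decomposition `y = algebraMap a + m` up to `𝔪_𝒪` and `𝔪_𝒪 R + 𝔪_R²`. -/
theorem residue_eq_and_mk_eq_of_add_eq {a a' : 𝒪} {m m' : R} (hm : m ∈ maximalIdeal R)
    (hm' : m' ∈ maximalIdeal R) (h : algebraMap 𝒪 R a + m = algebraMap 𝒪 R a' + m') :
    residue 𝒪 a = residue 𝒪 a' ∧
      RelCotangent.mk 𝒪 R ⟨m, hm⟩ = RelCotangent.mk 𝒪 R ⟨m', hm'⟩ := by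
  have h1 : algebraMap 𝒪 R (a - a') = m' - m := by
    rw [map_sub]; linear_combination h
  have h2 : a - a' ∈ maximalIdeal 𝒪 := by
    have : algebraMap 𝒪 R (a - a') ∈ maximalIdeal R := by
      rw [h1]; exact Ideal.sub_mem _ hm' hm
    rw [mem_maximalIdeal, mem_nonunits_iff] at this ⊢
    exact fun hu => this (hu.map _)
  refine ⟨?_, ?_⟩
  · rw [← sub_eq_zero, ← map_sub, residue_eq_zero_iff]
    exact h2
  · rw [RelCotangent.mk_eq_mk_iff]
    have h3 : m - m' = algebraMap 𝒪 R (-(a - a')) := by
      rw [map_neg, h1]; ring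
    change m - m' ∈ relIdeal 𝒪 R
    rw [h3]
    exact Ideal.mem_sup_left (Ideal.mem_map_of_mem _ (Ideal.neg_mem_iff _ |>.mpr h2))

omit [IsLocalHom (algebraMap 𝒪 R)] in
theorem resConst_algebraMap_add (hres : Function.Surjective (residue R ∘ algebraMap 𝒪 R))
    (a : 𝒪) {m : R} (hm : m ∈ maximalIdeal R) :
    resConst hres (algebraMap 𝒪 R a + m) = residue 𝒪 a :=
  (residue_eq_and_mk_eq_of_add_eq (a := constPart hres (algebraMap 𝒪 R a + m)) (a' := a)
    (m' := m) (constPart_spec hres (algebraMap 𝒪 R a + m)) hm (by ring)).1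

omit [IsLocalHom (algebraMap 𝒪 R)] in
theorem cotPart_algebraMap_add (hres : Function.Surjective (residue R ∘ algebraMap 𝒪 R))
    (a : 𝒪) {m : R} (hm : m ∈ maximalIdeal R) :
    cotPart hres (algebraMap 𝒪 R a + m) = RelCotangent.mk 𝒪 R ⟨m, hm⟩ :=
  (residue_eq_and_mk_eq_of_add_eq (a := constPart hres (algebraMap 𝒪 R a + m)) (a' := a)
    (m' := m) (constPart_spec hres (algebraMap 𝒪 R a + m)) hm (by ring)).2

omit [IsLocalRing 𝒪] [IsLocalHom (algebraMap 𝒪 R)] in
theorem eq_algebraMap_constPart_add (hres : Function.Surjective (residue R ∘ algebraMap 𝒪 R))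
    (y : R) : y = algebraMap 𝒪 R (constPart hres y) + (y - algebraMap 𝒪 R (constPart hres y)) := by
  ring

/-- The underlying function of `dualNumberHom`. -/
noncomputable def dualNumberFun (hres : Function.Surjective (residue R ∘ algebraMap 𝒪 R))
    (l : Module.Dual (ResidueField 𝒪) (RelCotangent 𝒪 R)) (y : R) : (ResidueField 𝒪)[ε] :=
  inl (resConst hres y) + inr (l (cotPart hres y))

theorem dualNumberFun_algebraMap_add (hres : Function.Surjective (residue R ∘ algebraMap 𝒪 R))
    (l : Module.Dual (ResidueField 𝒪) (RelCotangent 𝒪 R)) (a : 𝒪) {m : R}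
    (hm : m ∈ maximalIdeal R) :
    dualNumberFun hres l (algebraMap 𝒪 R a + m) =
      inl (residue 𝒪 a) + inr (l (RelCotangent.mk 𝒪 R ⟨m, hm⟩)) := by
  rw [dualNumberFun, resConst_algebraMap_add hres a hm, cotPart_algebraMap_add hres a hm]

theorem dualNumberFun_add (hres : Function.Surjective (residue R ∘ algebraMap 𝒪 R))
    (l : Module.Dual (ResidueField 𝒪) (RelCotangent 𝒪 R)) (y y' : R) :
    dualNumberFun hres l (y + y') = dualNumberFun hres l y + dualNumberFun hres l y' := by
  set a := constPart hres y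
  set a' := constPart hres y'
  have hm := constPart_spec hres y
  have hm' := constPart_spec hres y'
  have e : y + y' = algebraMap 𝒪 R (a + a') +
      ((y - algebraMap 𝒪 R a) + (y' - algebraMap 𝒪 R a')) := by rw [map_add]; ring
  rw [e, dualNumberFun_algebraMap_add hres l _ (Ideal.add_mem _ hm hm')]
  have e2 : (⟨(y - algebraMap 𝒪 R a) + (y' - algebraMap 𝒪 R a'), Ideal.add_mem _ hm hm'⟩ :
      maximalIdeal R) = ⟨y - algebraMap 𝒪 R a, hm⟩ + ⟨y' - algebraMap 𝒪 R a', hm'⟩ := rfl
  rw [e2, map_add, map_add, map_add, inl_add, inr_add]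
  simp only [dualNumberFun, resConst, cotPart]
  abel

theorem dualNumberFun_mul (hres : Function.Surjective (residue R ∘ algebraMap 𝒪 R))
    (l : Module.Dual (ResidueField 𝒪) (RelCotangent 𝒪 R)) (y y' : R) :
    dualNumberFun hres l (y * y') = dualNumberFun hres l y * dualNumberFun hres l y' := by
  set a := constPart hres y
  set a' := constPart hres y'
  have hm := constPart_spec hres y
  have hm' := constPart_spec hres y'
  set m : maximalIdeal R := ⟨y - algebraMap 𝒪 R a, hm⟩ with hmdef
  set m' : maximalIdeal R := ⟨y' - algebraMap 𝒪 R a', hm'⟩ with hmdef'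
  have hmm : ((a • m' + a' • m + (m : R) • m' : maximalIdeal R) : R) =
      algebraMap 𝒪 R a * (y' - algebraMap 𝒪 R a') + algebraMap 𝒪 R a' * (y - algebraMap 𝒪 R a) +
        (y - algebraMap 𝒪 R a) * (y' - algebraMap 𝒪 R a') := by
    simp only [Submodule.coe_add, Submodule.coe_smul_of_tower, Algebra.smul_def, hmdef, hmdef']
    rfl
  have e : y * y' = algebraMap 𝒪 R (a * a') +
      ((a • m' + a' • m + (m : R) • m' : maximalIdeal R) : R) := by
    rw [hmm, map_mul]; ring
  have hy : dualNumberFun hres l y = inl (residue 𝒪 a) + inr (l (RelCotangent.mk 𝒪 R m)) := rfl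
  have hy' : dualNumberFun hres l y' = inl (residue 𝒪 a') + inr (l (RelCotangent.mk 𝒪 R m')) := rfl
  rw [e, dualNumberFun_algebraMap_add hres l _ (Subtype.prop _), hy, hy']
  have h0 : (m : R) • RelCotangent.mk 𝒪 R m' = 0 := RelCotangent.smul_eq_zero_of_mem m.2 _
  have hsm : ∀ (b : 𝒪) (q : RelCotangent 𝒪 R), l (b • q) = residue 𝒪 b * l q := by
    intro b q
    rw [← RelCotangent.residue_smul, map_smul, smul_eq_mul]
  have key : l (RelCotangent.mk 𝒪 R (a • m' + a' • m + (m : R) • m')) =
      residue 𝒪 a * l (RelCotangent.mk 𝒪 R m') + residue 𝒪 a' * l (RelCotangent.mk 𝒪 R m) := by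
    have e1 : RelCotangent.mk 𝒪 R (a • m' + a' • m + (m : R) • m') =
        a • RelCotangent.mk 𝒪 R m' + a' • RelCotangent.mk 𝒪 R m := by
      rw [map_add, map_add, LinearMap.map_smul_of_tower, LinearMap.map_smul_of_tower,
        LinearMap.map_smul_of_tower, h0, add_zero]
    rw [e1, map_add, hsm, hsm]
  rw [Subtype.coe_eta, key, map_mul]
  ext
  · simp
  · simp [mul_comm]

/-- **(TAN-hom)** The `𝒪`-algebra map `R → k[ε]`, `algebraMap a + m ↦ ā + l([m]) ε`, attached to
a linear functional `l` on the relative cotangent space. -/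
noncomputable def dualNumberHom (hres : Function.Surjective (residue R ∘ algebraMap 𝒪 R))
    (l : Module.Dual (ResidueField 𝒪) (RelCotangent 𝒪 R)) : R →ₐ[𝒪] (ResidueField 𝒪)[ε] where
  toFun := dualNumberFun hres l
  map_one' := by
    have := dualNumberFun_algebraMap_add hres l 1 (zero_mem (maximalIdeal R))
    rw [map_one, add_zero] at this
    rw [this]
    have h0 : (⟨0, zero_mem (maximalIdeal R)⟩ : maximalIdeal R) = 0 := rfl
    simp only [h0, map_zero, inr_zero, add_zero, map_one, inl_one]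
  map_mul' := dualNumberFun_mul hres l
  map_zero' := by
    have := dualNumberFun_algebraMap_add hres l 0 (zero_mem (maximalIdeal R))
    rw [map_zero, add_zero] at this
    rw [this]
    have h0 : (⟨0, zero_mem (maximalIdeal R)⟩ : maximalIdeal R) = 0 := rfl
    simp only [h0, map_zero, inr_zero, add_zero, inl_zero]
  map_add' := dualNumberFun_add hres l
  commutes' a := by
    have := dualNumberFun_algebraMap_add hres l a (zero_mem (maximalIdeal R))
    rw [add_zero] at this
    rw [this]
    have h0 : (⟨0, zero_mem (maximalIdeal R)⟩ : maximalIdeal R) = 0 := rfl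
    simp only [h0, map_zero, inr_zero, add_zero, algebraMap_dualNumber_apply]

theorem dualNumberHom_apply (hres : Function.Surjective (residue R ∘ algebraMap 𝒪 R))
    (l : Module.Dual (ResidueField 𝒪) (RelCotangent 𝒪 R)) (y : R) :
    dualNumberHom hres l y = inl (resConst hres y) + inr (l (cotPart hres y)) := rfl

theorem fst_dualNumberHom (hres : Function.Surjective (residue R ∘ algebraMap 𝒪 R))
    (l : Module.Dual (ResidueField 𝒪) (RelCotangent 𝒪 R)) (y : R) :
    fst (dualNumberHom hres l y) = resConst hres y := by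
  simp [dualNumberHom_apply]

/-- The `ε`-coordinate of `dualNumberHom hres l` is `l ∘ cotPart hres`: linear in `l`. -/
theorem snd_dualNumberHom (hres : Function.Surjective (residue R ∘ algebraMap 𝒪 R))
    (l : Module.Dual (ResidueField 𝒪) (RelCotangent 𝒪 R)) (y : R) :
    snd (dualNumberHom hres l y) = l (cotPart hres y) := by
  simp [dualNumberHom_apply]

theorem dualNumberHom_algebraMap_add (hres : Function.Surjective (residue R ∘ algebraMap 𝒪 R))
    (l : Module.Dual (ResidueField 𝒪) (RelCotangent 𝒪 R)) (a : 𝒪) {m : R}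
    (hm : m ∈ maximalIdeal R) :
    dualNumberHom hres l (algebraMap 𝒪 R a + m) =
      inl (residue 𝒪 a) + inr (l (RelCotangent.mk 𝒪 R ⟨m, hm⟩)) :=
  dualNumberFun_algebraMap_add hres l a hm

theorem dualNumberHom_of_mem (hres : Function.Surjective (residue R ∘ algebraMap 𝒪 R))
    (l : Module.Dual (ResidueField 𝒪) (RelCotangent 𝒪 R)) {m : R} (hm : m ∈ maximalIdeal R) :
    dualNumberHom hres l m = inr (l (RelCotangent.mk 𝒪 R ⟨m, hm⟩)) := by
  have := dualNumberHom_algebraMap_add hres l 0 hm
  rwa [map_zero, zero_add, map_zero, inl_zero, zero_add] at this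

/-- `l ↦ dualNumberHom hres l` is injective. -/
theorem dualNumberHom_injective (hres : Function.Surjective (residue R ∘ algebraMap 𝒪 R)) :
    Function.Injective (dualNumberHom (𝒪 := 𝒪) (R := R) hres) := by
  intro l l' h
  ext q
  obtain ⟨m, rfl⟩ := RelCotangent.mk_surjective q
  have h1 := dualNumberHom_of_mem hres l m.2
  have h2 := dualNumberHom_of_mem hres l' m.2
  rw [h, h2] at h1
  exact (inr_injective h1).symm

omit [IsLocalHom (algebraMap 𝒪 R)] in
/-- Every `𝒪`-algebra map `R → k[ε]` is a local homomorphism. -/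
theorem isLocalHom_of_algHom_dualNumber (hres : Function.Surjective (residue R ∘ algebraMap 𝒪 R))
    (φ : R →ₐ[𝒪] (ResidueField 𝒪)[ε]) : IsLocalHom (φ : R →+* (ResidueField 𝒪)[ε]) := by
  refine ⟨fun y hy => ?_⟩
  by_contra hny
  obtain ⟨a, ha⟩ := exists_sub_mem_maximalIdeal hres y
  have hya : algebraMap 𝒪 R a ∈ maximalIdeal R := by
    have : algebraMap 𝒪 R a = y - (y - algebraMap 𝒪 R a) := by ring
    rw [this]
    exact Ideal.sub_mem _ hny ha
  have haO : a ∈ maximalIdeal 𝒪 := by
    rw [mem_maximalIdeal, mem_nonunits_iff] at hya ⊢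
    exact fun hu => hya (hu.map _)
  -- `y = algebraMap a + m` with both parts mapping into the maximal ideal `(ε)`
  have h1 : fst (φ (algebraMap 𝒪 R a)) = 0 := by
    rw [AlgHom.commutes, algebraMap_dualNumber_apply, fst_inl, residue_eq_zero_iff]
    exact haO
  -- an element `m ∈ 𝔪_R` cannot map to a unit: otherwise `1 - u m` … use `fst ∘ φ` ring hom to a
  -- field whose kernel is a proper ideal containing … we argue via nonunits directly
  have h2 : ∀ m ∈ maximalIdeal R, fst (φ m) = 0 := by
    intro m hm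
    by_contra hne
    -- choose `b` with `residue b = (fst (φ m))⁻¹`; then `1 - algebraMap b * m` is a unit of `R`
    obtain ⟨b, hb⟩ := residue_surjective (R := 𝒪) (fst (φ m))⁻¹
    have hu : IsUnit (1 - algebraMap 𝒪 R b * m) := by
      by_contra hnu
      have hmem : 1 - algebraMap 𝒪 R b * m ∈ maximalIdeal R := hnu
      have : (1 : R) ∈ maximalIdeal R := by
        have e : (1 : R) = (1 - algebraMap 𝒪 R b * m) + algebraMap 𝒪 R b * m := by ring
        rw [e]
        exact Ideal.add_mem _ hmem (Ideal.mul_mem_left _ _ hm)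
      exact (Ideal.ne_top_iff_one _).mp (maximalIdeal.isMaximal R).ne_top this
    have hu' := hu.map (φ : R →+* (ResidueField 𝒪)[ε])
    rw [isUnit_iff_isUnit_fst] at hu'
    have : fst ((φ : R →+* (ResidueField 𝒪)[ε]) (1 - algebraMap 𝒪 R b * m)) = 0 := by
      simp only [RingHom.coe_coe, map_sub, map_one, map_mul, AlgHom.commutes,
        algebraMap_dualNumber_apply, fst_sub, fst_one, fst_mul, fst_inl, hb]
      rw [inv_mul_cancel₀ hne, sub_self]
    rw [this] at hu'
    exact not_isUnit_zero hu'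
  have h3 : fst (φ y) = 0 := by
    have e : y = algebraMap 𝒪 R a + (y - algebraMap 𝒪 R a) := by ring
    rw [e, map_add, fst_add, h1, h2 _ ha, add_zero]
  have hy' : IsUnit (fst ((φ : R →+* (ResidueField 𝒪)[ε]) y)) := isUnit_iff_isUnit_fst.mp hy
  rw [RingHom.coe_coe, h3] at hy'
  exact not_isUnit_zero hy'

end Fermat.Agent.TW.Tan
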