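import Mathlib.RingTheory.DualNumber
import Mathlib.RingTheory.HopkinsLevitzki
import Mathlib.RingTheory.AdicCompletion.Noetherian
import Mathlib.RingTheory.LocalRing.ResidueField.Basic

/-!
# (TAN-dual) the dual numbers `k[ε]` as a test object for deformation problems

`k = ResidueField 𝒪`.  All the structure that `GaloisRep.DeformationRingData.universal` asks of a
coefficient ring is provided here for `k[ε]`: it is a Noetherian (Artinian) local ring, complete
for its maximal ideal `(ε)`, an `𝒪`-algebra with local structure map, and `𝒪 → k[ε]/(ε)` is onto.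
Mathlib only.
-/

set_option autoImplicit false

namespace Fermat.Agent.TW.Tan

open IsLocalRing DualNumber TrivSqZeroExt

section Field

variable (K : Type*) [Field K]

theorem maximalIdeal_dualNumber_sq : maximalIdeal K[ε] ^ 2 = ⊥ := by
  rw [maximalIdeal_eq_span_singleton_eps, Ideal.span_singleton_pow, pow_two, eps_mul_eps,
    Ideal.span_singleton_eq_bot]

instance isArtinianRing_dualNumber : IsArtinianRing K[ε] :=
  (isArtinianRing_iff_isNilpotent_maximalIdeal K[ε]).mpr ⟨2, maximalIdeal_dualNumber_sq K⟩

/-- `k[ε]` is complete for its maximal ideal. -/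
theorem isAdicComplete_dualNumber : IsAdicComplete (maximalIdeal K[ε]) K[ε] := inferInstance

variable {K}

theorem mem_maximalIdeal_dualNumber_iff {x : K[ε]} : x ∈ maximalIdeal K[ε] ↔ fst x = 0 := by
  rw [maximalIdeal_eq_span_singleton_eps, Ideal.mem_span_singleton, fst_eq_zero_iff_eps_dvd]

theorem inr_mem_maximalIdeal_dualNumber (c : K) : (inr c : K[ε]) ∈ maximalIdeal K[ε] :=
  mem_maximalIdeal_dualNumber_iff.mpr (fst_inr K c)

end Field

section Algebra

variable {𝒪 : Type*} [CommRing 𝒪] [IsLocalRing 𝒪]

theorem algebraMap_dualNumber_apply (a : 𝒪) :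
    algebraMap 𝒪 (ResidueField 𝒪)[ε] a = inl (residue 𝒪 a) := rfl

instance isLocalHom_algebraMap_dualNumber :
    IsLocalHom (algebraMap 𝒪 (ResidueField 𝒪)[ε]) where
  map_nonunit a ha := by
    rw [algebraMap_dualNumber_apply, isUnit_inl_iff] at ha
    exact (isUnit_map_iff (residue 𝒪) a).mp ha

/-- `𝒪 → k[ε] → k[ε]/(ε)` is onto. -/
theorem residue_comp_algebraMap_dualNumber_surjective :
    Function.Surjective (residue (ResidueField 𝒪)[ε] ∘ algebraMap 𝒪 (ResidueField 𝒪)[ε]) := by
  intro z
  obtain ⟨x, rfl⟩ := residue_surjective z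
  obtain ⟨a, ha⟩ := residue_surjective (fst x)
  refine ⟨a, ?_⟩
  simp only [Function.comp_apply]
  rw [← sub_eq_zero, ← map_sub, residue_eq_zero_iff, mem_maximalIdeal_dualNumber_iff,
    algebraMap_dualNumber_apply, fst_sub, fst_inl, ha, sub_self]

end Algebra

end Fermat.Agent.TW.Tan
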