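import Fermat.Agent.TW.Tan.PowerSeriesSurj
import Fermat.Agent.TW.Tan.DualNumberHom
import Fermat.Prelude.Def_GaloisRep_DeformationRingData

/-!
# (TAN) tangent-space bound ⇒ power-series presentation of a deformation ring

Top of block (TAN) of the S56 design.

* `exists_surjective_of_finrank_relCotangent_le`: for a complete Noetherian local `𝒪`-algebra `R`
  (`𝒪` complete local, `𝒪 → R/𝔪_R` onto, structure map local),
  `dim_k 𝔪_R/(𝔪_𝒪 R + 𝔪_R²) ≤ r` gives a surjection `𝒪⟦X₁,…,X_r⟧ ↠ R`.
* `finrank_relCotangent_le_of_injective`: to bound that dimension it suffices to embed the dual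
  (= the tangent space, see `dualNumberHom`) `k`-linearly into a space of dimension `≤ r`
  (in the application: a Selmer group).
* `exists_surjective_of_deformationRingData`: the same for `DQ.R`, in the literal shape of the
  conclusion of the frozen statement S56.
-/

set_option autoImplicit false

namespace Fermat.Agent.TW.Tan

open IsLocalRing

section General

variable {𝒪 R : Type*} [CommRing 𝒪] [IsLocalRing 𝒪] [IsPrecomplete (maximalIdeal 𝒪) 𝒪]
  [CommRing R] [Algebra 𝒪 R] [IsLocalRing R] [IsNoetherianRing R]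
  [IsAdicComplete (maximalIdeal R) R] [IsLocalHom (algebraMap 𝒪 R)]

/-- **(TAN)**, ring-theoretic form. -/
theorem exists_surjective_of_finrank_relCotangent_le
    (hres : Function.Surjective (residue R ∘ algebraMap 𝒪 R)) {r : ℕ}
    (h : Module.finrank (ResidueField 𝒪) (RelCotangent 𝒪 R) ≤ r) :
    ∃ γ : MvPowerSeries (Fin r) 𝒪 →ₐ[𝒪] R, Function.Surjective γ := by
  obtain ⟨x, hx, hgen⟩ := exists_generators_of_finrank_le hres h
  obtain ⟨γ, hγ, -⟩ := exists_surjective_mvPowerSeries hres x hx hgen
  exact ⟨γ, hγ⟩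

omit [IsPrecomplete (maximalIdeal 𝒪) 𝒪] [IsAdicComplete (maximalIdeal R) R] in
/-- The relative cotangent space is no bigger than any space into which its dual embeds. -/
theorem finrank_relCotangent_le_of_injective
    (hres : Function.Surjective (residue R ∘ algebraMap 𝒪 R))
    {W : Type*} [AddCommGroup W] [Module (ResidueField 𝒪) W] [Module.Finite (ResidueField 𝒪) W]
    (f : Module.Dual (ResidueField 𝒪) (RelCotangent 𝒪 R) →ₗ[ResidueField 𝒪] W)
    (hf : Function.Injective f) :
    Module.finrank (ResidueField 𝒪) (RelCotangent 𝒪 R) ≤ Module.finrank (ResidueField 𝒪) W := by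
  have := RelCotangent.finite (𝒪 := 𝒪) (R := R) hres
  rw [← Subspace.dual_finrank_eq]
  exact LinearMap.finrank_le_finrank_of_injective hf

end General

section Deformation

variable {𝒪 : Type} [CommRing 𝒪] [IsDomain 𝒪] [IsDiscreteValuationRing 𝒪]
  [IsAdicComplete (maximalIdeal 𝒪) 𝒪]
  {ρbar : ResidualGaloisRep (ResidueField 𝒪)}
  {𝒟 : ∀ ⦃A : Type⦄ [CommRing A] [IsLocalRing A] [Algebra 𝒪 A], GaloisRepAdic A → Prop}

/-- **(TAN)** for a deformation ring: the conclusion of S56 from a tangent-space bound. -/
theorem exists_surjective_of_deformationRingData (DQ : GaloisRep.DeformationRingData 𝒪 ρbar 𝒟)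
    {r : ℕ} (h : Module.finrank (ResidueField 𝒪) (RelCotangent 𝒪 DQ.R) ≤ r) :
    ∃ γ : MvPowerSeries (Fin r) 𝒪 →ₐ[𝒪] DQ.R, Function.Surjective γ :=
  exists_surjective_of_finrank_relCotangent_le DQ.residue_surjective h

/-- **(TAN)** for a deformation ring, with the tangent space embedded in a `k`-space `W`
(the Selmer group) of dimension `≤ r`. -/
theorem exists_surjective_of_deformationRingData_of_injective
    (DQ : GaloisRep.DeformationRingData 𝒪 ρbar 𝒟)
    {W : Type*} [AddCommGroup W] [Module (ResidueField 𝒪) W] [Module.Finite (ResidueField 𝒪) W]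
    (f : Module.Dual (ResidueField 𝒪) (RelCotangent 𝒪 DQ.R) →ₗ[ResidueField 𝒪] W)
    (hf : Function.Injective f) {r : ℕ} (hW : Module.finrank (ResidueField 𝒪) W ≤ r) :
    ∃ γ : MvPowerSeries (Fin r) 𝒪 →ₐ[𝒪] DQ.R, Function.Surjective γ :=
  exists_surjective_of_deformationRingData DQ
    ((finrank_relCotangent_le_of_injective DQ.residue_surjective f hf).trans hW)

end Deformation

end Fermat.Agent.TW.Tan
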