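import Fermat.Agent.TW.Contracts
import Fermat.Agent.TW.Tan.Main
import Fermat.Agent.S53.BaseChange

/-!
# (TAN-glue) `TangentCardLe` + base-change stability ⇒ the surjection of S56

`tanOut_of_baseChange`: block (TAN) in the shape of `Contracts.TanOut`, with the extra hypothesis
`hbc` that `𝒟` survives base change of the universal deformation along `𝒪`-algebra maps
`DQ.R → k[ε]` (without it `TanOut` is not provable).
-/

set_option autoImplicit false

namespace Fermat.Agent.TW.Tan

open IsLocalRing TrivSqZeroExt DualNumber Fermat.Agent.TW.Contracts Fermat.Agent.S53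

section Convert

variable {𝒪 : Type} [CommRing 𝒪] [IsLocalRing 𝒪] {R : Type} [CommRing R] [IsLocalRing R]
  [Algebra 𝒪 R] [IsLocalHom (algebraMap 𝒪 R)]

/-- The underlying ring map of `dualNumberHom`. -/
noncomputable def dualNumberRingHom (hres : Function.Surjective (residue R ∘ algebraMap 𝒪 R))
    (l : Module.Dual (ResidueField 𝒪) (RelCotangent 𝒪 R)) : R →+* (ResidueField 𝒪)[ε] :=
  (dualNumberHom hres l).toRingHom

theorem dualNumberRingHom_apply (hres : Function.Surjective (residue R ∘ algebraMap 𝒪 R))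
    (l : Module.Dual (ResidueField 𝒪) (RelCotangent 𝒪 R)) (y : R) :
    dualNumberRingHom hres l y = dualNumberHom hres l y := rfl

theorem dualNumberRingHom_algebraMap (hres : Function.Surjective (residue R ∘ algebraMap 𝒪 R))
    (l : Module.Dual (ResidueField 𝒪) (RelCotangent 𝒪 R)) (a : 𝒪) :
    dualNumberRingHom hres l (algebraMap 𝒪 R a) = inl (residue 𝒪 a) :=
  (dualNumberHom hres l).commutes a

theorem dualNumberRingHom_injective (hres : Function.Surjective (residue R ∘ algebraMap 𝒪 R)) :
    Function.Injective (dualNumberRingHom (𝒪 := 𝒪) (R := R) hres) := by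
  intro l l' h
  apply dualNumberHom_injective hres
  ext y : 1
  exact DFunLike.congr_fun h y

theorem isLocalHom_dualNumberRingHom (hres : Function.Surjective (residue R ∘ algebraMap 𝒪 R))
    (l : Module.Dual (ResidueField 𝒪) (RelCotangent 𝒪 R)) :
    IsLocalHom (dualNumberRingHom hres l) :=
  isLocalHom_of_algHom_dualNumber hres (dualNumberHom hres l)

/-- A nonzero tangent vector is a surjection `R → k[ε]`. -/
theorem dualNumberRingHom_surjective_of_ne_zero
    (hres : Function.Surjective (residue R ∘ algebraMap 𝒪 R))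
    {l : Module.Dual (ResidueField 𝒪) (RelCotangent 𝒪 R)} (hl : l ≠ 0) :
    Function.Surjective (dualNumberRingHom hres l) := by
  obtain ⟨q, hq⟩ : ∃ q, l q ≠ 0 := by
    by_contra h
    exact hl (LinearMap.ext fun q => not_not.mp fun hq => h ⟨q, hq⟩)
  obtain ⟨m, rfl⟩ := RelCotangent.mk_surjective q
  intro x
  obtain ⟨a, ha⟩ := residue_surjective (R := 𝒪) (fst x)
  obtain ⟨a', ha'⟩ := residue_surjective (R := 𝒪) (snd x / l (RelCotangent.mk 𝒪 R m))
  have hm' : algebraMap 𝒪 R a' * (m : R) ∈ maximalIdeal R := Ideal.mul_mem_left _ _ m.2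
  refine ⟨algebraMap 𝒪 R a + algebraMap 𝒪 R a' * (m : R), ?_⟩
  rw [dualNumberRingHom_apply, dualNumberHom_algebraMap_add hres l a hm']
  have e1 : (⟨algebraMap 𝒪 R a' * (m : R), hm'⟩ : maximalIdeal R) = a' • m := by
    ext
    rw [Submodule.coe_smul_of_tower, Algebra.smul_def]
  rw [e1, LinearMap.map_smul_of_tower, ← RelCotangent.residue_smul, map_smul, smul_eq_mul, ha, ha',
    div_mul_cancel₀ _ hq]
  exact inl_fst_add_inr_snd_eq x

/-- `dualNumberHom` as an algebra map for the Prelude's `𝒪`-algebra structure on `k[ε]`. -/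
noncomputable def dualNumberHomP (hres : Function.Surjective (residue R ∘ algebraMap 𝒪 R))
    (l : Module.Dual (ResidueField 𝒪) (RelCotangent 𝒪 R)) :
    @AlgHom 𝒪 R (DualNumber (ResidueField 𝒪)) _ _ _ _ (dualNumberAlgebra 𝒪) :=
  @AlgHom.mk 𝒪 R (DualNumber (ResidueField 𝒪)) _ _ _ _ (dualNumberAlgebra 𝒪)
    (dualNumberRingHom hres l) (fun a => dualNumberRingHom_algebraMap hres l a)

theorem coe_dualNumberHomP (hres : Function.Surjective (residue R ∘ algebraMap 𝒪 R))
    (l : Module.Dual (ResidueField 𝒪) (RelCotangent 𝒪 R)) :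
    letI := dualNumberAlgebra 𝒪
    ((dualNumberHomP hres l : R →ₐ[𝒪] DualNumber (ResidueField 𝒪)) :
      R →+* DualNumber (ResidueField 𝒪)) = dualNumberRingHom hres l := rfl

end Convert

section Residue

variable (𝒪 : Type) [CommRing 𝒪] [IsLocalRing 𝒪]

/-- The structure map `𝒪 → k[ε]` of the Prelude's algebra structure is local. -/
theorem isLocalHom_algebraMap_dualNumberAlgebra :
    IsLocalHom (@algebraMap 𝒪 (DualNumber (ResidueField 𝒪)) _ _ (dualNumberAlgebra 𝒪)) :=
  ⟨fun a ha => (isLocalHom_algebraMap_dualNumber (𝒪 := 𝒪)).map_nonunit a ha⟩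

theorem residue_comp_algebraMap_dualNumberAlgebra_surjective :
    Function.Surjective (residue (DualNumber (ResidueField 𝒪)) ∘
      @algebraMap 𝒪 (DualNumber (ResidueField 𝒪)) _ _ (dualNumberAlgebra 𝒪)) :=
  fun z => residue_comp_algebraMap_dualNumber_surjective (𝒪 := 𝒪) z

/-- The ring map `k → ResidueField k[ε]` whose `toAlgebra` is `dualNumberResidueAlgebra`. -/
noncomputable def tanResidueHom : ResidueField 𝒪 →+* ResidueField (DualNumber (ResidueField 𝒪)) :=
  (residue (DualNumber (ResidueField 𝒪))).comp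
    (algebraMap (ResidueField 𝒪) (DualNumber (ResidueField 𝒪)))

theorem residueFieldMap_dualNumberAlgebra :
    @ResidueField.map 𝒪 (DualNumber (ResidueField 𝒪)) _ _ _ _
      (@algebraMap 𝒪 (DualNumber (ResidueField 𝒪)) _ _ (dualNumberAlgebra 𝒪))
      (isLocalHom_algebraMap_dualNumberAlgebra 𝒪) = tanResidueHom 𝒪 := by
  have := isLocalHom_algebraMap_dualNumberAlgebra 𝒪
  ext x
  obtain ⟨o, rfl⟩ := residue_surjective x
  rw [ResidueField.map_residue]
  rfl

end Residue

section Glue

variable {𝒪 : Type} [CommRing 𝒪] [IsDomain 𝒪] [IsDiscreteValuationRing 𝒪]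
  [IsAdicComplete (maximalIdeal 𝒪) 𝒪] [Finite (ResidueField 𝒪)]
  {ρbar : ResidualGaloisRep (ResidueField 𝒪)} {𝒟 : Cond 𝒪}

omit [Finite (ResidueField 𝒪)] in
/-- The residual representation of the base change of the universal deformation along a tangent
vector is `ρbar` (base-changed to the residue field of `k[ε]`). -/
theorem residual_baseChangeAlong_dualNumberRingHom (DQ : GaloisRep.DeformationRingData 𝒪 ρbar 𝒟)
    (l : Module.Dual (ResidueField 𝒪) (RelCotangent 𝒪 DQ.R)) :
    (DQ.ρ.baseChangeAlong (dualNumberRingHom DQ.residue_surjective l)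
      (isLocalHom_dualNumberRingHom DQ.residue_surjective l)).residual.IsEquiv
      (ρbar.baseChangeAlong (tanResidueHom 𝒪)) := by
  set φ := dualNumberRingHom DQ.residue_surjective l with hφdef
  have hφ : IsLocalHom φ := isLocalHom_dualNumberRingHom DQ.residue_surjective l
  set ψ := @ResidueField.map DQ.R (DualNumber (ResidueField 𝒪)) _ _ _ _ φ hφ with hψ
  have step1 := isEquiv_residual_baseChangeAlong φ hφ DQ.ρ
  have step2 := res_isEquiv_baseChangeAlong ψ DQ.residual_isEquiv
  have hcomp : ψ.comp (ResidueField.map (algebraMap 𝒪 DQ.R)) = tanResidueHom 𝒪 := by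
    ext x
    obtain ⟨o, rfl⟩ := residue_surjective x
    rw [RingHom.comp_apply, ResidueField.map_residue, hψ]
    have := hφ
    rw [ResidueField.map_residue, hφdef, dualNumberRingHom_algebraMap]
    rfl
  have step3 := res_isEquiv_baseChangeAlong_of_comp_eq
    (ResidueField.map (algebraMap 𝒪 DQ.R)) ψ (tanResidueHom 𝒪) hcomp ρbar
  exact res_isEquiv_trans step1 (res_isEquiv_trans step2 step3)

omit [Finite (ResidueField 𝒪)] in
/-- Two tangent vectors whose deformations are equivalent coincide (the `∃!` of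
`DQ.universal` at `A = k[ε]`). -/
theorem eq_of_isEquiv_baseChangeAlong_dualNumberRingHom
    (DQ : GaloisRep.DeformationRingData 𝒪 ρbar 𝒟)
    (l l' : Module.Dual (ResidueField 𝒪) (RelCotangent 𝒪 DQ.R))
    (h𝒟' : @𝒟 (DualNumber (ResidueField 𝒪)) _ _ (dualNumberAlgebra 𝒪)
      (DQ.ρ.baseChangeAlong (dualNumberRingHom DQ.residue_surjective l')
        (isLocalHom_dualNumberRingHom DQ.residue_surjective l')))
    (h1 : (DQ.ρ.baseChangeAlong (dualNumberRingHom DQ.residue_surjective l)
        (isLocalHom_dualNumberRingHom DQ.residue_surjective l)).IsEquiv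
      (DQ.ρ.baseChangeAlong (dualNumberRingHom DQ.residue_surjective l')
        (isLocalHom_dualNumberRingHom DQ.residue_surjective l'))) : l = l' := by
  have hres := DQ.residue_surjective
  have hloc : ∀ l, IsLocalHom (dualNumberRingHom hres l) := isLocalHom_dualNumberRingHom hres
  let alg := dualNumberAlgebra 𝒪
  have := isLocalHom_algebraMap_dualNumberAlgebra 𝒪
  have hresid' : (DQ.ρ.baseChangeAlong (dualNumberRingHom hres l') (hloc l')).residual.IsEquiv
      (ρbar.baseChangeAlong (ResidueField.map (algebraMap 𝒪 (DualNumber (ResidueField 𝒪))))) := by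
    rw [residueFieldMap_dualNumberAlgebra]
    exact residual_baseChangeAlong_dualNumberRingHom DQ l'
  obtain ⟨φ0, -, huniq⟩ := DQ.universal (DualNumber (ResidueField 𝒪))
    (residue_comp_algebraMap_dualNumberAlgebra_surjective 𝒪)
    (DQ.ρ.baseChangeAlong (dualNumberRingHom hres l') (hloc l')) h𝒟' hresid'
  have e1 : dualNumberHomP hres l = φ0 := huniq _ ⟨hloc l, h1⟩
  have e2 : dualNumberHomP hres l' = φ0 := huniq _ ⟨hloc l', isEquiv_refl _⟩
  apply dualNumberRingHom_injective hres
  have e3 := e1.trans e2.symm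
  ext y : 1
  exact DFunLike.congr_fun e3 y

/-- **(TAN)** in the shape of `Contracts.TanOut`, with the base-change hypothesis `hbc`. -/
theorem tanOut_of_baseChange (r : ℕ) (hcard : TangentCardLe 𝒪 ρbar 𝒟 r)
    (DQ : GaloisRep.DeformationRingData 𝒪 ρbar 𝒟)
    (hbc : ∀ (φ : DQ.R →+* DualNumber (ResidueField 𝒪)) (hφ : IsLocalHom φ),
      (∀ a : 𝒪, φ (algebraMap 𝒪 DQ.R a) = inl (residue 𝒪 a)) →
        @𝒟 (DualNumber (ResidueField 𝒪)) _ _ (dualNumberAlgebra 𝒪)
          (DQ.ρ.baseChangeAlong φ hφ)) :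
    ∃ γ : MvPowerSeries (Fin r) 𝒪 →ₐ[𝒪] DQ.R, Function.Surjective γ := by
  classical
  obtain ⟨f, hf⟩ := hcard
  have hres := DQ.residue_surjective
  have hloc : ∀ l, IsLocalHom (dualNumberRingHom hres l) := isLocalHom_dualNumberRingHom hres
  have h𝒟 : ∀ l, @𝒟 (DualNumber (ResidueField 𝒪)) _ _ (dualNumberAlgebra 𝒪)
      (DQ.ρ.baseChangeAlong (dualNumberRingHom hres l) (hloc l)) :=
    fun l => hbc _ (hloc l) (dualNumberRingHom_algebraMap hres l)
  have hresid := residual_baseChangeAlong_dualNumberRingHom DQ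
  -- the classifying map on tangent vectors
  let g : Module.Dual (ResidueField 𝒪) (RelCotangent 𝒪 DQ.R) → (Fin r → ResidueField 𝒪) :=
    fun l => f ⟨DQ.ρ.baseChangeAlong (dualNumberRingHom hres l) (hloc l), h𝒟 l, hresid l⟩
  have hg : Function.Injective g := fun l l' h =>
    eq_of_isEquiv_baseChangeAlong_dualNumberRingHom DQ l l' (h𝒟 l') (hf _ _ h)
  -- count
  have hfinQ : Module.Finite (ResidueField 𝒪) (RelCotangent 𝒪 DQ.R) := RelCotangent.finite hres
  have : Finite (Module.Dual (ResidueField 𝒪) (RelCotangent 𝒪 DQ.R)) :=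
    Module.finite_of_finite (ResidueField 𝒪)
  have hle := Nat.card_le_card_of_injective g hg
  rw [Module.natCard_eq_pow_finrank (K := ResidueField 𝒪)
      (V := Module.Dual (ResidueField 𝒪) (RelCotangent 𝒪 DQ.R)),
    Subspace.dual_finrank_eq, Nat.card_fun, Nat.card_eq_fintype_card (α := Fin r),
    Fintype.card_fin] at hle
  have h1 : 1 < Nat.card (ResidueField 𝒪) := Finite.one_lt_card
  exact exists_surjective_of_deformationRingData DQ ((Nat.pow_le_pow_iff_right h1).mp hle)

/-- **(TAN)**, economical variant: the base-change hypothesis is only needed for SURJECTIVE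
`φ : DQ.R → k[ε]` (the nonzero tangent vectors), at the price of `2 < #k`. -/
theorem tanOut_of_baseChange_surjective (r : ℕ) (hcard : TangentCardLe 𝒪 ρbar 𝒟 r)
    (DQ : GaloisRep.DeformationRingData 𝒪 ρbar 𝒟) (h3 : 2 < Nat.card (ResidueField 𝒪))
    (hbc : ∀ (φ : DQ.R →+* DualNumber (ResidueField 𝒪)) (hφ : IsLocalHom φ),
      (∀ a : 𝒪, φ (algebraMap 𝒪 DQ.R a) = inl (residue 𝒪 a)) → Function.Surjective φ →
        @𝒟 (DualNumber (ResidueField 𝒪)) _ _ (dualNumberAlgebra 𝒪)
          (DQ.ρ.baseChangeAlong φ hφ)) :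
    ∃ γ : MvPowerSeries (Fin r) 𝒪 →ₐ[𝒪] DQ.R, Function.Surjective γ := by
  classical
  obtain ⟨f, hf⟩ := hcard
  have hres := DQ.residue_surjective
  have hloc : ∀ l, IsLocalHom (dualNumberRingHom hres l) := isLocalHom_dualNumberRingHom hres
  have h𝒟 : ∀ l, l ≠ 0 → @𝒟 (DualNumber (ResidueField 𝒪)) _ _ (dualNumberAlgebra 𝒪)
      (DQ.ρ.baseChangeAlong (dualNumberRingHom hres l) (hloc l)) :=
    fun l hl => hbc _ (hloc l) (dualNumberRingHom_algebraMap hres l)
      (dualNumberRingHom_surjective_of_ne_zero hres hl)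
  have hresid := residual_baseChangeAlong_dualNumberRingHom DQ
  let g : Module.Dual (ResidueField 𝒪) (RelCotangent 𝒪 DQ.R) →
      Option (Fin r → ResidueField 𝒪) :=
    fun l => if hl : l = 0 then none else
      some (f ⟨DQ.ρ.baseChangeAlong (dualNumberRingHom hres l) (hloc l), h𝒟 l hl, hresid l⟩)
  have hg : Function.Injective g := by
    intro l l' h
    by_cases hl : l = 0
    · by_cases hl' : l' = 0
      · rw [hl, hl']
      · simp only [g, hl, hl', dite_true, dite_false] at h
        exact absurd h (by simp)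
    · by_cases hl' : l' = 0
      · simp only [g, hl, hl', dite_true, dite_false] at h
        exact absurd h (by simp)
      · simp only [g, hl, hl', dite_false, Option.some.injEq] at h
        exact eq_of_isEquiv_baseChangeAlong_dualNumberRingHom DQ l l' (h𝒟 l' hl') (hf _ _ h)
  have hfinQ : Module.Finite (ResidueField 𝒪) (RelCotangent 𝒪 DQ.R) := RelCotangent.finite hres
  have : Finite (Module.Dual (ResidueField 𝒪) (RelCotangent 𝒪 DQ.R)) :=
    Module.finite_of_finite (ResidueField 𝒪)
  have hle := Nat.card_le_card_of_injective g hg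
  rw [Module.natCard_eq_pow_finrank (K := ResidueField 𝒪)
      (V := Module.Dual (ResidueField 𝒪) (RelCotangent 𝒪 DQ.R)),
    Subspace.dual_finrank_eq, Finite.card_option, Nat.card_fun,
    Nat.card_eq_fintype_card (α := Fin r), Fintype.card_fin] at hle
  refine exists_surjective_of_deformationRingData DQ ?_
  by_contra hlt
  rw [not_le] at hlt
  -- `#k ^ (r+1) ≤ #k ^ d ≤ #k ^ r + 1`, impossible for `#k ≥ 3`
  have h4 : Nat.card (ResidueField 𝒪) ^ (r + 1) ≤
      Nat.card (ResidueField 𝒪) ^ Module.finrank (ResidueField 𝒪) (RelCotangent 𝒪 DQ.R) :=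
    Nat.pow_le_pow_right (by omega) hlt
  have h5 : 0 < Nat.card (ResidueField 𝒪) ^ r := pow_pos (by omega) r
  have h6 : Nat.card (ResidueField 𝒪) ^ (r + 1) =
      Nat.card (ResidueField 𝒪) ^ r * Nat.card (ResidueField 𝒪) := pow_succ _ _
  nlinarith

end Glue

end Fermat.Agent.TW.Tan
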