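import Mathlib.RingTheory.MvPowerSeries.Evaluation
import Mathlib.RingTheory.AdicCompletion.Topology
import Mathlib.RingTheory.AdicCompletion.Functoriality
import Mathlib.RingTheory.AdicCompletion.Noetherian
import Mathlib.RingTheory.AdicCompletion.Completeness
import Mathlib.RingTheory.LocalRing.ResidueField.Basic
import Mathlib.RingTheory.Nakayama

/-!
# (TAN-alg) power-series presentations of complete local `𝒪`-algebras

Block (TAN) of the S56 design, commutative-algebra half.  Mathlib only.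

* `exists_algHom_X_eq`: for `R` local and `𝔪_R`-adically complete and `x i ∈ 𝔪_R`, there is an
  `𝒪`-algebra map `𝒪⟦X₁,…,X_r⟧ → R` with `X i ↦ x i`.
* `exists_surjective_mvPowerSeries`: if moreover `R` is Noetherian, `𝒪` is local and
  `𝔪_𝒪`-adically precomplete, `𝒪 → R/𝔪_R` is onto and
  `𝔪_R ≤ 𝔪_𝒪 R ⊔ (x₁,…,x_r) ⊔ 𝔪_R²`, then that map is surjective.
-/

set_option autoImplicit false

namespace Fermat.Agent.TW.Tan

open IsLocalRing

section Construct

variable {𝒪 R : Type*} [CommRing 𝒪] [CommRing R] [Algebra 𝒪 R]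
  [IsLocalRing R] [IsAdicComplete (maximalIdeal R) R]

/-- Evaluation of power series at elements of the maximal ideal of a complete local ring. -/
theorem exists_algHom_X_eq {r : ℕ} (x : Fin r → R) (hx : ∀ i, x i ∈ maximalIdeal R) :
    ∃ γ : MvPowerSeries (Fin r) 𝒪 →ₐ[𝒪] R, ∀ i, γ (MvPowerSeries.X i) = x i := by
  let : WithIdeal R := ⟨maximalIdeal R⟩
  let : UniformSpace 𝒪 := ⊥
  have hadic : IsAdic (maximalIdeal R) := rfl
  obtain ⟨hc, ht2⟩ := hadic.isAdicComplete_iff.mp inferInstance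
  have : ContinuousSMul 𝒪 R := continuousSMul_of_algebraMap 𝒪 R continuous_of_discreteTopology
  have ha : MvPowerSeries.HasEval x :=
    { hpow := fun s => WithIdeal.isTopologicallyNilpotent_of_mem (hx s)
      tendsto_zero := by simp [Filter.cofinite_eq_bot] }
  refine ⟨MvPowerSeries.aeval ha, fun i => ?_⟩
  rw [← MvPolynomial.coe_X, MvPowerSeries.aeval_coe, MvPolynomial.aeval_X]

end Construct

section Surj

variable {𝒪 R : Type*} [CommRing 𝒪] [IsLocalRing 𝒪] [IsPrecomplete (maximalIdeal 𝒪) 𝒪]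
  [CommRing R] [Algebra 𝒪 R] [IsLocalRing R] [IsNoetherianRing R]
  [IsLocalHom (algebraMap 𝒪 R)]

omit [IsPrecomplete (maximalIdeal 𝒪) 𝒪] [IsLocalHom (algebraMap 𝒪 R)] in
/-- Nakayama: generators of `𝔪_R` modulo `𝔪_𝒪 R + 𝔪_R²` generate modulo `𝔪_𝒪 R`. -/
theorem maximalIdeal_le_of_le_sup_sq (J : Ideal R)
    (hgen : maximalIdeal R ≤ (maximalIdeal 𝒪).map (algebraMap 𝒪 R) ⊔ J ⊔ maximalIdeal R ^ 2) :
    maximalIdeal R ≤ (maximalIdeal 𝒪).map (algebraMap 𝒪 R) ⊔ J := by
  apply Submodule.le_of_le_smul_of_le_jacobson_bot (I := maximalIdeal R)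
    (IsNoetherian.noetherian _) (maximalIdeal_le_jacobson _)
  rwa [smul_eq_mul, ← pow_two]

/-- Stage 2: if `𝔪_R ≤ 𝔪_𝒪 R ⊔ J` and `𝒪 → R/𝔪_R` is onto then `𝒪 → R/J` is onto
(`𝒪` complete, `R/J` separated). -/
theorem algebraMap_quotient_surjective
    (hres : Function.Surjective (residue R ∘ algebraMap 𝒪 R)) (J : Ideal R)
    (hgen : maximalIdeal R ≤ (maximalIdeal 𝒪).map (algebraMap 𝒪 R) ⊔ J) :
    Function.Surjective (algebraMap 𝒪 (R ⧸ J)) := by
  have : IsHausdorff (maximalIdeal 𝒪) (R ⧸ J) :=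
    IsHausdorff.of_map (S := R) (J := maximalIdeal R)
      (IsLocalRing.map_maximalIdeal_le (algebraMap 𝒪 R))
  have key : Function.Surjective (Algebra.linearMap 𝒪 (R ⧸ J)) := by
    apply surjective_of_mkQ_comp_surjective (I := maximalIdeal 𝒪)
    intro z
    obtain ⟨z, rfl⟩ := Submodule.mkQ_surjective _ z
    obtain ⟨y, rfl⟩ := Ideal.Quotient.mk_surjective z
    obtain ⟨a, ha⟩ := hres (residue R y)
    refine ⟨a, ?_⟩
    have hmem : y - algebraMap 𝒪 R a ∈ maximalIdeal R := by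
      rw [← Ideal.Quotient.eq_zero_iff_mem, map_sub, sub_eq_zero]
      exact ha.symm
    obtain ⟨u, hu, j, hj, huj⟩ := Submodule.mem_sup.mp (hgen hmem)
    simp only [LinearMap.coe_comp, Function.comp_apply, Algebra.linearMap_apply,
      Submodule.mkQ_apply]
    rw [Submodule.Quotient.eq]
    have h1 : algebraMap 𝒪 (R ⧸ J) a - Ideal.Quotient.mk J y = - Ideal.Quotient.mk J u := by
      have : Ideal.Quotient.mk J j = 0 := Ideal.Quotient.eq_zero_iff_mem.mpr hj
      have h2 : y = algebraMap 𝒪 R a + (u + j) := by rw [huj]; ring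
      rw [h2, map_add, map_add, this, add_zero, IsScalarTower.algebraMap_apply 𝒪 R (R ⧸ J),
        Ideal.Quotient.algebraMap_eq]
      ring
    rw [h1]
    apply Submodule.neg_mem
    have hu' : u ∈ (maximalIdeal 𝒪 • ⊤ : Submodule 𝒪 R) := by
      rw [Ideal.smul_top_eq_map]
      exact hu
    have := Submodule.mem_map_of_mem (f := (Ideal.Quotient.mkₐ 𝒪 J).toLinearMap) hu'
    rw [Submodule.map_smul''] at this
    exact Submodule.smul_mono le_rfl le_top this
  exact key

/-- Stage 1: an `𝒪`-algebra map from the power series ring hitting generators of `𝔪_R` modulo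
`𝔪_𝒪 R + 𝔪_R²` is surjective. -/
theorem surjective_of_maximalIdeal_le
    (hres : Function.Surjective (residue R ∘ algebraMap 𝒪 R))
    {r : ℕ} (γ : MvPowerSeries (Fin r) 𝒪 →ₐ[𝒪] R)
    (hγ : ∀ i, γ (MvPowerSeries.X i) ∈ maximalIdeal R)
    (hgen : maximalIdeal R ≤ (maximalIdeal 𝒪).map (algebraMap 𝒪 R) ⊔
      Ideal.span (Set.range fun i => γ (MvPowerSeries.X i)) ⊔ maximalIdeal R ^ 2) :
    Function.Surjective γ := by
  set I₁ : Ideal (MvPowerSeries (Fin r) 𝒪) := Ideal.span (Set.range MvPowerSeries.X) with hI₁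
  have hmap : I₁.map (γ : MvPowerSeries (Fin r) 𝒪 →+* R) =
      Ideal.span (Set.range fun i => γ (MvPowerSeries.X i)) := by
    rw [hI₁, Ideal.map_span, ← Set.range_comp]
    rfl
  have hle : I₁.map (γ : MvPowerSeries (Fin r) 𝒪 →+* R) ≤ maximalIdeal R := by
    rw [hmap, Ideal.span_le]
    rintro _ ⟨i, rfl⟩
    exact hγ i
  have : IsHausdorff (I₁.map (γ : MvPowerSeries (Fin r) 𝒪 →+* R)) R :=
    IsHausdorff.of_le_jacobson _ _ (hle.trans (maximalIdeal_le_jacobson _))
  have hsurj : Function.Surjective (γ : MvPowerSeries (Fin r) 𝒪 →+* R) := by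
    apply surjective_of_mk_map_comp_surjective (I := I₁)
    intro z
    have h2 := algebraMap_quotient_surjective (𝒪 := 𝒪) hres
      (I₁.map (γ : MvPowerSeries (Fin r) 𝒪 →+* R))
      (by rw [hmap]; exact maximalIdeal_le_of_le_sup_sq _ hgen)
    obtain ⟨a, rfl⟩ := h2 z
    refine ⟨algebraMap 𝒪 _ a, ?_⟩
    simp only [RingHom.coe_comp, Function.comp_apply, RingHom.coe_coe, AlgHom.commutes]
    rw [IsScalarTower.algebraMap_apply 𝒪 R (R ⧸ _), Ideal.Quotient.algebraMap_eq]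
  exact hsurj

end Surj

section Main

variable {𝒪 R : Type*} [CommRing 𝒪] [IsLocalRing 𝒪] [IsPrecomplete (maximalIdeal 𝒪) 𝒪]
  [CommRing R] [Algebra 𝒪 R] [IsLocalRing R] [IsNoetherianRing R]
  [IsAdicComplete (maximalIdeal R) R] [IsLocalHom (algebraMap 𝒪 R)]

/-- **(TAN-alg)** A complete Noetherian local `𝒪`-algebra with residue field a quotient of `𝒪`
whose maximal ideal is generated by `r` elements modulo `𝔪_𝒪 R + 𝔪_R²` is a quotient of
`𝒪⟦X₁,…,X_r⟧`. -/
theorem exists_surjective_mvPowerSeries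
    (hres : Function.Surjective (residue R ∘ algebraMap 𝒪 R))
    {r : ℕ} (x : Fin r → R) (hx : ∀ i, x i ∈ maximalIdeal R)
    (hgen : maximalIdeal R ≤ (maximalIdeal 𝒪).map (algebraMap 𝒪 R) ⊔
      Ideal.span (Set.range x) ⊔ maximalIdeal R ^ 2) :
    ∃ γ : MvPowerSeries (Fin r) 𝒪 →ₐ[𝒪] R,
      Function.Surjective γ ∧ ∀ i, γ (MvPowerSeries.X i) = x i := by
  obtain ⟨γ, hγ⟩ := exists_algHom_X_eq (𝒪 := 𝒪) x hx
  have hfun : (fun i => γ (MvPowerSeries.X i)) = x := funext hγ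
  refine ⟨γ, surjective_of_maximalIdeal_le hres γ (fun i => by rw [hγ i]; exact hx i) ?_, hγ⟩
  rw [hfun]
  exact hgen

end Main

end Fermat.Agent.TW.Tan
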